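import Mathlib

/-!
# S25: semilinear maps with spanning range between invertible modules; invertible ideals
-/

set_option autoImplicit false

universe u

open TensorProduct

namespace FLTAgent.Jac.Semi

variable {R S T : Type u} [CommRing R] [CommRing S] [CommRing T]

/-- A semilinear map with spanning range out of an invertible module into an invertible one is
universal. -/
theorem exists_unique_lift {φ : R →+* S} {M : Type u} [AddCommGroup M] [Module R M]
    [Module.Invertible R M] {M' : Type u} [AddCommGroup M'] [Module S M'] [Module.Invertible S M']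
    (g : M →ₛₗ[φ] M') (hg : Submodule.span S (Set.range g) = ⊤) {P : Type u} [AddCommGroup P]
    [Module S P] (h : M →ₛₗ[φ] P) : ∃! l : M' →ₗ[S] P, ∀ m, l (g m) = h m := by
  letI : Algebra R S := φ.toAlgebra
  letI : Module R M' := Module.compHom M' φ
  letI : Module R P := Module.compHom P φ
  have : IsScalarTower R S M' := ⟨fun r s m => by
    show (φ r * s) • m = φ r • s • m
    rw [mul_smul]⟩
  have : IsScalarTower R S P := ⟨fun r s m => by
    show (φ r * s) • m = φ r • s • m
    rw [mul_smul]⟩
  let g₀ : M →ₗ[R] M' := { toFun := g, map_add' := map_add g, map_smul' := fun r m => map_smulₛₗ g r m }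
  let h₀ : M →ₗ[R] P := { toFun := h, map_add' := map_add h, map_smul' := fun r m => map_smulₛₗ h r m }
  let e : S ⊗[R] M →ₗ[S] M' := LinearMap.liftBaseChange S g₀
  have hsurj : Function.Surjective e := by
    rw [← LinearMap.range_eq_top, eq_top_iff, ← hg, Submodule.span_le]
    rintro _ ⟨m, rfl⟩
    exact ⟨1 ⊗ₜ m, by simp [e, g₀]⟩
  have hbij : Function.Bijective e := Module.Invertible.bijective_of_surjective hsurj
  let E := LinearEquiv.ofBijective e hbij
  have hE : ∀ m, E.symm (g m) = 1 ⊗ₜ m := fun m => by
    rw [LinearEquiv.symm_apply_eq]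
    simp [E, e, g₀]
  refine ⟨(LinearMap.liftBaseChange S h₀).comp E.symm.toLinearMap, fun m => ?_, fun l hl => ?_⟩
  · simp [hE, h₀]
  · refine LinearMap.ext_on hg ?_
    rintro _ ⟨m, rfl⟩
    simp [hE, h₀, hl]

/-- Existence of extension of scalars. -/
theorem exists_baseChange (φ : R →+* S) (M : Type u) [AddCommGroup M] [Module R M]
    [Module.Invertible R M] :
    ∃ (M' : Type u) (_ : AddCommGroup M') (_ : Module S M'), Module.Invertible S M' ∧
      ∃ g : M →ₛₗ[φ] M', Submodule.span S (Set.range g) = ⊤ := by
  letI : Algebra R S := φ.toAlgebra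
  refine ⟨S ⊗[R] M, inferInstance, inferInstance, inferInstance,
    { toFun := fun m => 1 ⊗ₜ m
      map_add' := fun m m' => tmul_add 1 m m'
      map_smul' := fun r m => by
        show (1 : S) ⊗ₜ[R] (r • m) = φ r • ((1 : S) ⊗ₜ[R] m)
        rw [← smul_tmul, TensorProduct.smul_tmul', Algebra.smul_def, smul_eq_mul]
        rfl }, ?_⟩
  refine eq_top_iff.2 fun z _ => ?_
  induction z using TensorProduct.induction_on with
  | zero => exact zero_mem _
  | tmul s m =>
    rw [show s ⊗ₜ[R] m = s • ((1 : S) ⊗ₜ[R] m) by rw [smul_tmul', smul_eq_mul, mul_one]]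
    exact Submodule.smul_mem _ s (Submodule.subset_span ⟨m, rfl⟩)
  | add a b ha hb => exact add_mem (ha trivial) (hb trivial)

/-- A spanning semilinear map between invertible modules over an injective ring map is
injective. -/
theorem injective_of_span {φ : R →+* S} (hφ : Function.Injective φ) {M : Type u} [AddCommGroup M]
    [Module R M] [Module.Invertible R M] {M' : Type u} [AddCommGroup M'] [Module S M']
    [Module.Invertible S M'] (g : M →ₛₗ[φ] M') (hg : Submodule.span S (Set.range g) = ⊤) :
    Function.Injective g := by
  letI : Algebra R S := φ.toAlgebra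
  let h : M →ₛₗ[φ] S ⊗[R] M :=
    { toFun := fun m => 1 ⊗ₜ m
      map_add' := fun m m' => tmul_add 1 m m'
      map_smul' := fun r m => by
        show (1 : S) ⊗ₜ[R] (r • m) = φ r • ((1 : S) ⊗ₜ[R] m)
        rw [← smul_tmul, TensorProduct.smul_tmul', Algebra.smul_def, smul_eq_mul]
        rfl }
  obtain ⟨l, hl, -⟩ := exists_unique_lift g hg h
  intro m m' e
  have e' : (1 : S) ⊗ₜ[R] m = 1 ⊗ₜ m' := (hl m).symm.trans ((congrArg l e).trans (hl m'))
  have hinj : Function.Injective ((Algebra.linearMap R S).rTensor M) :=
    Module.Flat.rTensor_preserves_injective_linearMap _ hφ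
  refine (TensorProduct.lid R M).symm.injective (hinj ?_)
  simpa using e'

/-- Composites of spanning semilinear maps span. -/
theorem span_range_comp {φ : R →+* S} {ψ : S →+* T} {M : Type u} [AddCommGroup M] [Module R M]
    {M' : Type u} [AddCommGroup M'] [Module S M'] {M'' : Type u} [AddCommGroup M''] [Module T M'']
    (g : M →ₛₗ[φ] M') (g' : M' →ₛₗ[ψ] M'') (hg : Submodule.span S (Set.range g) = ⊤)
    (hg' : Submodule.span T (Set.range g') = ⊤) :
    Submodule.span T (Set.range fun m => g' (g m)) = ⊤ := by
  refine eq_top_iff.2 (hg'.ge.trans (Submodule.span_le.2 ?_))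
  rintro _ ⟨m', rfl⟩
  have hm' : m' ∈ Submodule.span S (Set.range g) := hg ▸ trivial
  clear hg hg'
  induction hm' using Submodule.span_induction with
  | mem x hx =>
    obtain ⟨m, rfl⟩ := hx
    exact Submodule.subset_span ⟨m, rfl⟩
  | zero => simp
  | add a b _ _ ha hb => rw [map_add]; exact add_mem ha hb
  | smul s a _ ha => rw [map_smulₛₗ]; exact Submodule.smul_mem _ _ ha

/-- The span of the image of `I • ⊤` under a spanning semilinear map. -/
theorem span_image_smul_top {φ : R →+* S} {M : Type u} [AddCommGroup M] [Module R M]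
    {M' : Type u} [AddCommGroup M'] [Module S M'] (g : M →ₛₗ[φ] M')
    (hg : Submodule.span S (Set.range g) = ⊤) (I : Ideal R) :
    Submodule.span S (g '' (I • ⊤ : Submodule R M)) = I.map φ • ⊤ := by
  apply le_antisymm
  · rw [Submodule.span_le]
    rintro _ ⟨m, hm, rfl⟩
    refine Submodule.smul_induction_on hm (fun r hr m _ => ?_) (fun a b ha hb => ?_)
    · rw [map_smulₛₗ]
      exact Submodule.smul_mem_smul (Ideal.mem_map_of_mem φ hr) trivial
    · rw [map_add]; exact add_mem ha hb
  · rw [← hg, Ideal.map, Ideal.span, Submodule.span_smul_span, Submodule.span_le]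
    rintro x hx
    obtain ⟨_, ⟨r, hr, rfl⟩, _, ⟨m, rfl⟩, rfl⟩ := Set.mem_smul.1 hx
    exact Submodule.subset_span ⟨r • m, Submodule.smul_mem_smul hr trivial, map_smulₛₗ g r m⟩

/-- An ideal with a partner whose product is generated by a regular element is invertible. -/
theorem invertible_of_mul_eq_span {I I' : Ideal R} {P : R} (h : I * I' = Ideal.span {P})
    (hP : ∀ r : R, P * r = 0 → r = 0) : Module.Invertible R I := by
  classical
  let L := Localization.Away P
  have hinj : Function.Injective (algebraMap R L) :=
    IsLocalization.injective L (Submonoid.powers_le.2 (mem_nonZeroDivisors_iff.2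
      ⟨fun r hr => hP r hr, fun r hr => hP r (by rw [mul_comm]; exact hr)⟩))
  have : FaithfulSMul R L := (faithfulSMul_iff_algebraMap_injective R L).2 hinj
  have hu : IsUnit (algebraMap R L P) := IsLocalization.Away.algebraMap_isUnit P
  let J : Submodule R L := Submodule.map (Algebra.linearMap R L) I
  let J' : Submodule R L := Submodule.span R {((hu.unit⁻¹ : Lˣ) : L)} *
    Submodule.map (Algebra.linearMap R L) I'
  have hJ : J * J' = 1 := by
    have hmul : J * Submodule.map (Algebra.linearMap R L) I' = Submodule.span R {algebraMap R L P} := by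
      rw [show J * Submodule.map (Algebra.linearMap R L) I' =
        Submodule.map (Algebra.ofId R L).toLinearMap I *
          Submodule.map (Algebra.ofId R L).toLinearMap I' from rfl, ← Submodule.map_mul,
        show (I * I' : Submodule R R) = Submodule.span R {P} from h, Submodule.map_span,
        Set.image_singleton]
      rfl
    rw [mul_left_comm, hmul, Submodule.span_mul_span, Set.singleton_mul_singleton,
      Submodule.one_eq_span]
    simp
  let U : (Submodule R L)ˣ := ⟨J, J', hJ, mul_comm J J' ▸ hJ⟩
  have : Module.Invertible R J :=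
    Module.Invertible.left (R := R) (M := J) (Submodule.tensorInvEquiv U)
  exact .congr (Submodule.equivMapOfInjective (Algebra.linearMap R L) hinj I).symm

/-- `I • ⊤` in an invertible module is invertible if `I` is. -/
theorem invertible_smul_top (I : Ideal R) [Module.Invertible R I] (M : Type u) [AddCommGroup M]
    [Module R M] [Module.Invertible R M] :
    Module.Invertible R (I • ⊤ : Submodule R M) := by
  let f : I ⊗[R] M →ₗ[R] M := (TensorProduct.lid R M).toLinearMap ∘ₗ I.subtype.rTensor M
  have hf : Function.Injective f := (TensorProduct.lid R M).injective.comp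
    (Module.Flat.rTensor_preserves_injective_linearMap _ I.subtype_injective)
  have hr : LinearMap.range f = (I • ⊤ : Submodule R M) := by
    apply le_antisymm
    · rintro _ ⟨z, rfl⟩
      induction z using TensorProduct.induction_on with
      | zero => simp
      | tmul i m =>
        have : (i : R) • m ∈ (I • ⊤ : Submodule R M) := Submodule.smul_mem_smul i.2 trivial
        simpa [f] using this
      | add a b ha hb => rw [map_add]; exact add_mem ha hb
    · refine Submodule.smul_le.2 fun r hr m _ => ⟨(⟨r, hr⟩ : I) ⊗ₜ m, by simp [f]⟩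
  exact .congr ((LinearEquiv.ofInjective f hf).trans (LinearEquiv.ofEq _ _ hr))

end FLTAgent.Jac.Semi
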