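import Fermat.Agent.Jac.Ops.Fibre
import Fermat.Agent.Jac.Ops.Semilinear

/-!
# S25: effective divisors: invertibility of the ideal, base change, sums
-/

set_option autoImplicit false

universe u

open TensorProduct Polynomial

namespace FLTAgent.Jac

variable {k : Type u} [Field k] {M : Model k} {A : Type u} [CommRing A] [Algebra k A]
  {B : Type u} [CommRing B] [Algebra k B]

namespace Ops

/-- A divisor ideal has a partner with product generated by a monic polynomial in `x`. -/
theorem exists_partner {I : Ideal (M.Ap A)} (hfin : Module.Finite A (M.Ap A ⧸ I))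
    (hproj : Module.Projective A (M.Ap A ⧸ I)) :
    ∃ (q : A[X]) (I' : Ideal (M.Ap A)), q.Monic ∧
      I * I' = Ideal.span {aeval (M.xA A) q} := by
  obtain ⟨q, hq, hqI⟩ := exists_monic_mem M hfin
  set P := aeval (M.xA A) q with hP
  let I' : Ideal (M.Ap A) := (Ideal.span {P}).colon (I : Set (M.Ap A))
  have hle : I * I' ≤ Ideal.span {P} := Ideal.mul_le.2 fun i hi r hr => by
    rw [mul_comm]
    exact Submodule.mem_colon.1 hr i hi
  refine ⟨q, I', hq, le_antisymm hle ((Ideal.span_singleton_le_iff_mem _).2 ?_)⟩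
  let K : Ideal (M.Ap A) := (I * I').colon {P}
  suffices hK : K = ⊤ by
    have h1 : (1 : M.Ap A) ∈ K := hK ▸ trivial
    simpa using Submodule.mem_colon.1 h1 P rfl
  by_contra hne
  obtain ⟨𝔪, h𝔪, hK𝔪⟩ := Ideal.exists_le_maximal K hne
  obtain ⟨g, hg, s, hs, hsI⟩ := M.exists_local_generator hfin hproj 𝔪
  obtain ⟨h, hh⟩ := Ideal.mem_span_singleton.1 (hsI P hqI)
  have hI' : s * h ∈ I' := Submodule.mem_colon.2 fun i hi => by
    obtain ⟨r, hr⟩ := Ideal.mem_span_singleton.1 (hsI i hi)
    refine Ideal.mem_span_singleton.2 ⟨r * s, ?_⟩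
    rw [smul_eq_mul]
    linear_combination h * hr - r * hh
  have : s * s ∈ K := Submodule.mem_colon.2 fun z hz => by
    rw [Set.mem_singleton_iff.1 hz, smul_eq_mul, show s * s * P = g * (s * h) by
      linear_combination s * hh]
    exact Ideal.mul_mem_mul hg hI'
  exact (h𝔪.isPrime.mem_or_mem (hK𝔪 this)).elim hs hs

theorem invertible_of_partner {I I' : Ideal (M.Ap A)} {q : A[X]} (hq : q.Monic)
    (h : I * I' = Ideal.span {aeval (M.xA A) q}) : Module.Invertible (M.Ap A) I :=
  Semi.invertible_of_mul_eq_span h (M.aeval_monic_regular hq)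

/-- The partner pushed forward. -/
theorem map_partner (f : A →ₐ[k] B) {I I' : Ideal (M.Ap A)} {q : A[X]}
    (h : I * I' = Ideal.span {aeval (M.xA A) q}) :
    I.map (M.mapP f) * I'.map (M.mapP f) =
      Ideal.span {aeval (M.xA B) (q.map f.toRingHom)} := by
  rw [← Ideal.map_mul, h, Ideal.map_span, Set.image_singleton]
  congr 2
  rw [aeval_def, aeval_def, eval₂_map,
    show M.mapP f (eval₂ (algebraMap A (M.Ap A)) (M.xA A) q) =
      (M.mapP f).toRingHom (eval₂ (algebraMap A (M.Ap A)) (M.xA A) q) from rfl, hom_eval₂]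
  congr 1
  exact M.mapP_xA f

/-- Base change of the quotient by an ideal of the chart. -/
theorem quotient_map_equiv (f : A →ₐ[k] B) (I : Ideal (M.Ap A)) :
    letI := f.toRingHom.toAlgebra
    Nonempty ((B ⊗[A] (M.Ap A ⧸ I)) ≃ₗ[B] (M.Ap B ⧸ I.map (M.mapP f))) := by
  letI := f.toRingHom.toAlgebra
  have : IsScalarTower k A B := IsScalarTower.of_algebraMap_eq fun c => (f.commutes c).symm
  let e₁ := Algebra.TensorProduct.tensorQuotientEquiv (R := A) B (M.Ap A) B I
  let e : B ⊗[A] (M.Ap A) ≃ₐ[B] M.Ap B := Algebra.TensorProduct.cancelBaseChange k A B B M.Rp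
  have he : I.map (M.mapP f) =
      (I.map (Algebra.TensorProduct.includeRight (R := A) (A := B) (B := M.Ap A))).map e := by
    have hcomp : (M.mapP f).toRingHom = e.toAlgHom.toRingHom.comp
        (Algebra.TensorProduct.includeRight (R := A) (A := B) (B := M.Ap A)).toRingHom := by
      refine RingHom.ext fun z => ?_
      induction z using TensorProduct.induction_on with
      | zero => simp
      | add x y hx hy => simp only [map_add, hx, hy]
      | tmul a r =>
        show f a ⊗ₜ[k] r = e ((1 : B) ⊗ₜ[A] (a ⊗ₜ[k] r))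
        rw [show e ((1 : B) ⊗ₜ[A] (a ⊗ₜ[k] r)) = (a • (1 : B)) ⊗ₜ[k] r by simp [e],
          Algebra.smul_def, mul_one]
        rfl
    exact ((congrArg (fun g : M.Ap A →+* M.Ap B => I.map g) hcomp).trans
      (Ideal.map_map _ _).symm)
  exact ⟨e₁.toLinearEquiv.trans (Ideal.quotientEquivAlg _ _ e he).toLinearEquiv⟩

end Ops

open Ops

theorem IsDivDeg.map' {I : Ideal (M.Ap A)} {r : ℕ} (h : IsDivDeg I r) (f : A →ₐ[k] B) :
    IsDivDeg (I.map (M.mapP f)) r := by
  letI := f.toRingHom.toAlgebra
  obtain ⟨e⟩ := Ops.quotient_map_equiv f I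
  have := h.finite
  have := h.projective
  exact ⟨Module.Finite.equiv e, Module.Projective.of_equiv e, fun p => by
    rw [← Module.rankAtStalk_eq_of_equiv e, Module.rankAtStalk_baseChange, h.rank]⟩

theorem IsDivDeg.invertible' {I : Ideal (M.Ap A)} {r : ℕ} (h : IsDivDeg I r) :
    Module.Invertible (M.Ap A) I := by
  obtain ⟨q, I', hq, hI⟩ := Ops.exists_partner h.finite h.projective
  exact Ops.invertible_of_partner hq hI

theorem isDivDeg_constIdeal' {J : Ideal M.Rp} [Module.Finite k (M.Rp ⧸ J)] :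
    IsDivDeg (M.constIdeal A J) (Module.finrank k (M.Rp ⧸ J)) := by
  let e : A ⊗[k] (M.Rp ⧸ J) ≃ₗ[A] M.Ap A ⧸ M.constIdeal A J :=
    (Algebra.TensorProduct.tensorQuotientEquiv (R := k) A M.Rp A J).toLinearEquiv
  refine ⟨Module.Finite.equiv e, Module.Projective.of_equiv e, fun p => ?_⟩
  rw [← Module.rankAtStalk_eq_of_equiv e, Module.rankAtStalk_baseChange,
    Module.rankAtStalk_eq_finrank_of_free]
  rfl

theorem isDivDeg_ker_ptP' (σ : M.Rp →ₐ[k] A) : IsDivDeg (RingHom.ker (M.ptP σ)) 1 := by
  let e : (M.Ap A ⧸ RingHom.ker (M.ptP σ)) ≃ₗ[A] A :=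
    (Ideal.quotientKerAlgEquivOfSurjective
      (f := M.ptP σ) fun a => ⟨algebraMap A _ a, (M.ptP σ).commutes a⟩).toLinearEquiv
  refine ⟨Module.Finite.equiv e.symm, Module.Projective.of_equiv e.symm, fun p => ?_⟩
  have : Nontrivial A := p.nontrivial
  rw [Module.rankAtStalk_eq_of_equiv e, Module.rankAtStalk_self]
  rfl

/-- An invertible module over an algebra finite over the base has the same rank as the algebra. -/
theorem Ops.rankAtStalk_invertible {S : Type u} [CommRing S] [Algebra A S] [Module.Finite A S]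
    [Module.Projective A S] (V : Type u) [AddCommGroup V] [Module S V] [Module A V]
    [IsScalarTower A S V] [Module.Invertible S V] [Module.Finite A V] [Module.Projective A V]
    (p : PrimeSpectrum A) :
    Module.rankAtStalk (R := A) V p = Module.rankAtStalk (R := A) S p := by
  rw [Module.rankAtStalk_eq, Module.rankAtStalk_eq]
  let κ := p.asIdeal.ResidueField
  letI : Algebra S (κ ⊗[A] S) := Algebra.TensorProduct.rightAlgebra
  have : IsArtinianRing (κ ⊗[A] S) := IsArtinianRing.of_finite κ _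
  have : Finite (MaximalSpectrum (κ ⊗[A] S)) := inferInstance
  have hfree : Module.Free (κ ⊗[A] S) ((κ ⊗[A] S) ⊗[S] V) := inferInstance
  obtain ⟨e⟩ := Module.Invertible.free_iff_linearEquiv.1 hfree
  let e₁ : (κ ⊗[A] S) ⊗[S] V ≃ₗ[κ] κ ⊗[A] V :=
    Algebra.IsPushout.cancelBaseChange A κ S (κ ⊗[A] S) V
  exact (e₁.symm.trans (e.restrictScalars κ)).finrank_eq

theorem IsDivDeg.mul' {I I' : Ideal (M.Ap A)} {r r' : ℕ} (h : IsDivDeg I r) (h' : IsDivDeg I' r') :
    IsDivDeg (I * I') (r + r') := by
  let R := M.Ap A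
  have := h.finite
  have := h.projective
  have := h'.finite
  have := h'.projective
  have hinv : Module.Invertible R I := h.invertible'
  let S := M.Ap A ⧸ I'
  let V := S ⊗[R] I
  have hVfin : Module.Finite A V := Module.Finite.trans S V
  have hVproj : Module.Projective A V := by
    obtain ⟨n, f, g, -, -, hfg⟩ := Module.Finite.exists_comp_eq_id_of_projective S V
    have : Module.Projective A (Fin n → S) :=
      Module.Projective.of_equiv (DFinsupp.linearEquivFunOnFintype (R := A) (M := fun _ : Fin n => S))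
    exact Module.Projective.of_split (g.restrictScalars A) (f.restrictScalars A)
      (LinearMap.ext fun v => LinearMap.congr_fun hfg v)
  -- `I / I I'`
  let e₀ : V ≃ₗ[R] I ⧸ (I' • ⊤ : Submodule R I) :=
    TensorProduct.quotTensorEquivQuotSMul I I'
  let W := I ⧸ (I' • ⊤ : Submodule R I)
  let e : V ≃ₗ[A] W := e₀.restrictScalars A
  let j : W →ₗ[A] R ⧸ (I * I') :=
    (Submodule.liftQ _ ((Submodule.mkQ (I * I')).comp I.subtype) (by
      refine Submodule.smul_le.2 fun a ha i _ => ?_
      rw [LinearMap.mem_ker, LinearMap.comp_apply, map_smul, Submodule.mkQ_apply,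
        Submodule.Quotient.mk_eq_zero, smul_eq_mul, mul_comm a]
      exact Ideal.mul_mem_mul i.2 ha)).restrictScalars A
  have hj : Function.Injective j := by
    refine (injective_iff_map_eq_zero j).2 fun w hw => ?_
    obtain ⟨i, rfl⟩ := Submodule.Quotient.mk_surjective _ w
    have hi : (i : R) ∈ I' • I := by
      rw [show (I' • I : Submodule R R) = I' * I from rfl, mul_comm]
      exact (Submodule.Quotient.mk_eq_zero _).1 hw
    rw [Submodule.Quotient.mk_eq_zero]
    rw [show (I' • I : Submodule R R) = Submodule.map I.subtype (I' • ⊤) by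
      rw [Submodule.map_smul'', Submodule.map_top, Submodule.range_subtype]] at hi
    obtain ⟨i', hi', he⟩ := hi
    rwa [← I.subtype_injective he]
  let π : (R ⧸ (I * I')) →ₗ[A] R ⧸ I :=
    (Ideal.Quotient.factorₐ A (Ideal.mul_le_inf.trans inf_le_left : I * I' ≤ I)).toLinearMap
  have hπ : Function.Surjective π := fun z => by
    obtain ⟨z, rfl⟩ := Ideal.Quotient.mk_surjective z
    exact ⟨Ideal.Quotient.mk _ z, rfl⟩
  have hex : Function.Exact j π := fun z => by
    constructor
    · intro hz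
      obtain ⟨z, rfl⟩ := Ideal.Quotient.mk_surjective z
      have hzI : z ∈ I := Ideal.Quotient.eq_zero_iff_mem.1 hz
      exact ⟨Submodule.Quotient.mk ⟨z, hzI⟩, rfl⟩
    · rintro ⟨w, rfl⟩
      obtain ⟨i, rfl⟩ := Submodule.Quotient.mk_surjective _ w
      exact Ideal.Quotient.eq_zero_iff_mem.2 i.2
  obtain ⟨l, hl⟩ := Module.projective_lifting_property π LinearMap.id hπ
  obtain ⟨E, -, -⟩ := hex.splitSurjectiveEquiv hj ⟨l, hl⟩
  let F : (V × (M.Ap A ⧸ I)) ≃ₗ[A] M.Ap A ⧸ (I * I') :=
    (e.prodCongr (LinearEquiv.refl A _)).trans E.symm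
  refine ⟨Module.Finite.equiv F, Module.Projective.of_equiv F, fun p => ?_⟩
  rw [← Module.rankAtStalk_eq_of_equiv F, Module.rankAtStalk_prod, Pi.add_apply, h.rank,
    Ops.rankAtStalk_invertible (S := S) V, h'.rank, add_comm]

end FLTAgent.Jac
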