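import Fermat.Agent.Jac.Ops.Free

/-!
# S25: fibres of the chart over points of the base; local generators of divisor ideals
-/

set_option autoImplicit false

universe u

open TensorProduct Polynomial

namespace FLTAgent.Jac

variable {k : Type u} [Field k] (M : Model k)

/-- The fibre of the chart over a field is a Dedekind domain. -/
theorem Model.isDedekindDomain_fibre (κ : Type u) [Field κ] [Algebra k κ] :
    ∃ _ : IsDomain (M.Ap κ), IsDedekindDomain (M.Ap κ) := by
  classical
  let K := AlgebraicClosure κ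
  obtain ⟨hdom, hded⟩ := M.dedekind_p K
  let F := M.Ap κ
  let G := K ⊗[k] M.Rp
  let j : F →ₐ[k] G := Algebra.TensorProduct.map (IsScalarTower.toAlgHom k κ K) (AlgHom.id k M.Rp)
  obtain ⟨r, hr⟩ := LinearMap.exists_leftInverse_of_injective (Algebra.linearMap κ K)
    (LinearMap.ker_eq_bot.2 (algebraMap κ K).injective)
  let σ : G →ₗ[k] F := (r.restrictScalars k).rTensor M.Rp
  have hσ : ∀ (f : F) (c : G), σ (j f * c) = f * σ c := fun f c => by
    induction f using TensorProduct.induction_on with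
    | zero => simp
    | add a b ha hb => simp only [map_add, add_mul, ha, hb]
    | tmul a s =>
      induction c using TensorProduct.induction_on with
      | zero => simp
      | add a b ha hb => simp only [map_add, mul_add, ha, hb]
      | tmul l t =>
        have : r (algebraMap κ K a * l) = a * r l := by
          rw [← Algebra.smul_def, map_smul, smul_eq_mul]
        show σ ((algebraMap κ K a ⊗ₜ[k] s) * (l ⊗ₜ[k] t)) = (a ⊗ₜ[k] s) * σ (l ⊗ₜ[k] t)
        rw [Algebra.TensorProduct.tmul_mul_tmul]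
        show r (algebraMap κ K a * l) ⊗ₜ[k] (s * t) = (a ⊗ₜ[k] s) * (r l ⊗ₜ[k] t)
        rw [Algebra.TensorProduct.tmul_mul_tmul, this]
  have hσ1 : ∀ f : F, σ (j f) = f := fun f => by
    have h1 : σ (1 : G) = 1 := by
      have : r 1 = 1 := by simpa using LinearMap.congr_fun hr 1
      show r 1 ⊗ₜ[k] (1 : M.Rp) = 1
      rw [this]
      rfl
    simpa [h1] using hσ f 1
  have hj : Function.Injective j := Function.LeftInverse.injective hσ1
  have hFdom : IsDomain F := hj.isDomain j.toRingHom
  refine ⟨hFdom, ?_⟩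
  let φ : κ[X] →+* F := (aeval (M.xA κ)).toRingHom
  letI : Algebra κ[X] F := φ.toAlgebra
  obtain ⟨b, hb⟩ := M.exists_polyBasis κ
  let Φ : (Fin M.d → κ[X]) →ₗ[κ[X]] F :=
    { toFun := fun c : Fin M.d → κ[X] => ∑ i, aeval (M.xA κ) (c i) * b i
      map_add' := fun c c' => by
        simp only [Pi.add_apply, map_add, add_mul, Finset.sum_add_distrib]
      map_smul' := fun a c => by
        show ∑ i, aeval (M.xA κ) (a * c i) * b i = φ a * ∑ i, aeval (M.xA κ) (c i) * b i
        simp only [map_mul, mul_assoc, ← Finset.mul_sum]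
        rfl }
  have hfin : Module.Finite κ[X] F := .of_surjective Φ hb.2
  have hint : Algebra.IsIntegral κ[X] F := Algebra.IsIntegral.of_finite _ _
  have hnoeth : IsNoetherianRing F := IsNoetherianRing.of_finite κ[X] F
  have hinj : Function.Injective φ := by
    refine (injective_iff_map_eq_zero φ).2 fun q hq => ?_
    by_contra h0
    have hm := monic_mul_leadingCoeff_inv h0
    have h : aeval (M.xA κ) (q * C q.leadingCoeff⁻¹) * 1 = 0 := by
      rw [map_mul, show aeval (M.xA κ) q = 0 from hq, zero_mul, zero_mul]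
    exact one_ne_zero (M.aeval_monic_regular hm 1 h)
  have hdim : Ring.DimensionLEOne F := ⟨fun {P} hP hPp => by
    have h1 : P.comap φ ≠ ⊥ := by
      obtain ⟨x, hx, hx0⟩ := Submodule.exists_mem_ne_zero_of_ne_bot hP
      exact Ideal.comap_ne_bot_of_integral_mem hx0 hx (Algebra.IsIntegral.isIntegral x)
    have h2 : (P.comap φ).IsMaximal := IsPrime.to_maximal_ideal h1
    exact Ideal.isMaximal_of_isIntegral_of_isMaximal_comap P h2⟩
  have hic : IsIntegrallyClosed F := by
    refine (isIntegrallyClosed_iff (FractionRing F)).2 fun {x} hx => ?_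
    obtain ⟨a, b, hb, rfl⟩ := IsFractionRing.div_surjective (A := F) x
    let ψ : FractionRing F →+* FractionRing G := IsFractionRing.lift
      (g := (algebraMap G (FractionRing G)).comp j.toRingHom)
      ((IsFractionRing.injective G (FractionRing G)).comp hj)
    have hψ : ∀ f, ψ (algebraMap F _ f) = algebraMap G _ (j f) := fun f =>
      IsFractionRing.lift_algebraMap _ _
    obtain ⟨p, hp, hpx⟩ := hx
    have hint' : IsIntegral G (ψ (algebraMap F _ a / algebraMap F _ b)) := by
      refine ⟨p.map j.toRingHom, hp.map _, ?_⟩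
      rw [eval₂_map]
      have := congrArg ψ hpx
      rw [map_zero, hom_eval₂] at this
      rw [show (algebraMap G (FractionRing G)).comp j.toRingHom =
        ψ.comp (algebraMap F (FractionRing F)) from RingHom.ext fun f => (hψ f).symm]
      exact this
    obtain ⟨c, hc⟩ := IsIntegrallyClosed.isIntegral_iff.1 hint'
    have hb0 : b ≠ 0 := nonZeroDivisors.ne_zero hb
    have hjb : algebraMap G (FractionRing G) (j b) ≠ 0 :=
      IsFractionRing.to_map_ne_zero_of_mem_nonZeroDivisors
        (mem_nonZeroDivisors_of_ne_zero fun h => hb0 (hj (h.trans (map_zero j).symm)))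
    rw [map_div₀, hψ, hψ, eq_div_iff hjb, ← map_mul] at hc
    have hab : a = b * σ c := by
      rw [← hσ, mul_comm, IsFractionRing.injective G (FractionRing G) hc, hσ1]
    refine ⟨σ c, ?_⟩
    rw [hab, map_mul, mul_div_assoc, mul_comm, div_mul_cancel₀]
    exact IsFractionRing.to_map_ne_zero_of_mem_nonZeroDivisors hb
  exact { hFdom, hnoeth, hdim, hic with }

variable {A : Type u} [CommRing A] [Algebra k A]

/-- A local ring receiving the chart with the primes below killed is a principal ideal ring. -/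
theorem Model.isPrincipalIdealRing_of_fibre {Q : Type u} [CommRing Q] [Algebra k Q] [IsLocalRing Q]
    (θR : M.Ap A →ₐ[k] Q) (p : Ideal A) [p.IsPrime]
    (h₁ : ∀ a ∈ p, θR (algebraMap A (M.Ap A) a) = 0)
    (h₂ : ∀ a ∉ p, IsUnit (θR (algebraMap A (M.Ap A) a)))
    (hsurj : ∀ t : Q, ∃ r s : M.Ap A, IsUnit (θR s) ∧ θR s * t = θR r) :
    IsPrincipalIdealRing Q := by
  classical
  let θA : A →ₐ[k] Q := θR.comp (IsScalarTower.toAlgHom k A (M.Ap A))
  let ι₀ : p.ResidueField →+* Q := Ideal.ResidueField.lift p θA.toRingHom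
    (fun a ha => RingHom.mem_ker.2 (h₁ a ha)) (fun a ha => h₂ a ha)
  have hι : ∀ a : A, ι₀ (algebraMap A p.ResidueField a) = θR (algebraMap A (M.Ap A) a) := fun a =>
    Ideal.ResidueField.lift_algebraMap p θA.toRingHom _ _ a
  let ι : p.ResidueField →ₐ[k] Q :=
    { ι₀ with
      commutes' := fun c => by
        show ι₀ (algebraMap k p.ResidueField c) = algebraMap k Q c
        rw [IsScalarTower.algebraMap_apply k A p.ResidueField, hι,
          ← IsScalarTower.algebraMap_apply k A (M.Ap A), AlgHom.commutes] }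
  let θ : M.Ap p.ResidueField →ₐ[k] Q := Algebra.TensorProduct.lift ι
    (θR.comp Algebra.TensorProduct.includeRight) fun _ _ => mul_comm _ _
  let red : M.Ap A →ₐ[k] M.Ap p.ResidueField :=
    Algebra.TensorProduct.map (IsScalarTower.toAlgHom k A p.ResidueField) (AlgHom.id k M.Rp)
  have hθ : ∀ r, θ (red r) = θR r := fun r => by
    induction r using TensorProduct.induction_on with
    | zero => simp
    | add a b ha hb => simp only [map_add, ha, hb]
    | tmul a s =>
      show θ (algebraMap A p.ResidueField a ⊗ₜ[k] s) = θR (a ⊗ₜ[k] s)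
      rw [Algebra.TensorProduct.lift_tmul]
      show ι₀ (algebraMap A p.ResidueField a) * θR ((1 : A) ⊗ₜ[k] s) = θR (a ⊗ₜ[k] s)
      rw [hι, ← map_mul, Algebra.TensorProduct.algebraMap_apply,
        Algebra.TensorProduct.tmul_mul_tmul]
      simp
  obtain ⟨hdom, hded⟩ := M.isDedekindDomain_fibre p.ResidueField
  let P : Ideal (M.Ap p.ResidueField) := (IsLocalRing.maximalIdeal Q).comap θ
  have : IsDedekindDomain (Localization.AtPrime P) :=
    IsLocalization.AtPrime.isDedekindDomain _ P _
  have : IsPrincipalIdealRing (Localization.AtPrime P) := by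
    refine IsPrincipalIdealRing.of_finite_primes ((Set.toFinite
      {⊥, IsLocalRing.maximalIdeal (Localization.AtPrime P)}).subset fun I hI => ?_)
    rcases eq_or_ne I ⊥ with h | h
    · exact Or.inl h
    · exact Or.inr (IsLocalRing.eq_maximalIdeal (hI.isMaximal h))
  let ρ : Localization.AtPrime P →+* Q :=
    IsLocalization.lift (M := P.primeCompl) (g := θ.toRingHom) fun y =>
      IsLocalRing.notMem_maximalIdeal.1 y.2
  refine IsPrincipalIdealRing.of_surjective ρ fun t => ?_
  obtain ⟨r, s, hs, hst⟩ := hsurj t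
  have hs' : red s ∈ P.primeCompl := fun h =>
    IsLocalRing.notMem_maximalIdeal.2 hs (hθ s ▸ h)
  refine ⟨IsLocalization.mk' (Localization.AtPrime P) (red r) (⟨red s, hs'⟩ : P.primeCompl), ?_⟩
  rw [IsLocalization.lift_mk'_spec]
  show θ (red r) = θ (red s) * t
  rw [hθ, hθ, hst]

/-- An ideal with finite projective quotient is locally principal. -/
theorem Model.exists_local_generator {I : Ideal (M.Ap A)} (hfin : Module.Finite A (M.Ap A ⧸ I))
    (hproj : Module.Projective A (M.Ap A ⧸ I)) (𝔪 : Ideal (M.Ap A)) [h𝔪 : 𝔪.IsMaximal] :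
    ∃ g ∈ I, ∃ s ∉ 𝔪, ∀ i ∈ I, s * i ∈ Ideal.span {g} := by
  classical
  let R := M.Ap A
  let p : Ideal A := 𝔪.comap (algebraMap A R)
  let L := Localization.AtPrime 𝔪
  let pR : Ideal R := p.map (algebraMap A R)
  have hp𝔪 : pR ≤ 𝔪 := Ideal.map_comap_le
  let pL : Ideal L := pR.map (algebraMap R L)
  have hpL : pL ≤ IsLocalRing.maximalIdeal L := by
    refine Ideal.map_le_iff_le_comap.2 (hp𝔪.trans ?_)
    exact (IsLocalization.AtPrime.comap_maximalIdeal L 𝔪).ge
  -- the projection onto the ideal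
  let mk : R →ₗ[A] (M.Ap A ⧸ I) := (Ideal.Quotient.mkₐ A I).toLinearMap
  obtain ⟨sec, hsec⟩ := Module.projective_lifting_property mk LinearMap.id
    Ideal.Quotient.mk_surjective
  let π : R →ₗ[A] R := LinearMap.id - sec ∘ₗ mk
  have hπI : ∀ r, π r ∈ I := fun r => by
    refine Ideal.Quotient.eq_zero_iff_mem.1 ?_
    show mk (r - sec (mk r)) = 0
    have := LinearMap.congr_fun hsec (mk r)
    rw [LinearMap.comp_apply, LinearMap.id_apply] at this
    rw [map_sub, this, sub_self]
  have hπ1 : ∀ i ∈ I, π i = i := fun i hi => by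
    show i - sec (mk i) = i
    rw [show mk i = 0 from Ideal.Quotient.eq_zero_iff_mem.2 hi, map_zero, sub_zero]
  have hinter : ∀ i ∈ I, i ∈ pR → i ∈ pR * I := fun i hi hip => by
    have h : i ∈ (p • ⊤ : Submodule A R) := by rw [Ideal.smul_top_eq_map]; exact hip
    rw [← hπ1 i hi]
    clear hip hi
    refine Submodule.smul_induction_on h (fun a ha r _ => ?_) (fun x y hx hy => ?_)
    · rw [map_smul, Algebra.smul_def]
      exact Ideal.mul_mem_mul (Ideal.mem_map_of_mem _ ha) (hπI r)
    · rw [map_add]; exact add_mem hx hy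
  obtain ⟨q, hq, hqI⟩ := exists_monic_mem M hfin
  obtain ⟨S, hS⟩ := M.exists_finset_of_monic hq
  have hIfg : I.FG := by
    refine ⟨insert (aeval (M.xA A) q) (S.image π), le_antisymm (Submodule.span_le.2 ?_) fun i hi => ?_⟩
    · intro z hz
      rcases Finset.mem_insert.1 (Finset.mem_coe.1 hz) with rfl | hz
      · exact hqI
      · obtain ⟨w, -, rfl⟩ := Finset.mem_image.1 hz
        exact hπI w
    · obtain ⟨r', hr'⟩ := hS i
      have h2 : i - aeval (M.xA A) q * r' ∈ I := sub_mem hi (I.mul_mem_right _ hqI)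
      rw [← sub_add_cancel i (aeval (M.xA A) q * r')]
      refine add_mem ?_ (Ideal.mul_mem_right _ _ (Submodule.subset_span (by simp)))
      rw [← hπ1 _ h2]
      have h3 : π (i - aeval (M.xA A) q * r') ∈ Submodule.span A (π '' (S : Set R)) := by
        rw [Submodule.span_image]; exact Submodule.mem_map_of_mem hr'
      refine (?_ : Submodule.span A (π '' (S : Set R)) ≤
        (Submodule.span R _).restrictScalars A) h3
      rw [Submodule.span_le]
      rintro _ ⟨w, hw, rfl⟩
      exact Submodule.subset_span (by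
        simp only [Finset.coe_insert, Finset.coe_image]
        exact Or.inr ⟨w, hw, rfl⟩)
  -- the fibre
  let Q := L ⧸ pL
  have : Nontrivial Q := Ideal.Quotient.nontrivial_iff.2
    (ne_top_of_le_ne_top (IsLocalRing.maximalIdeal.isMaximal L).ne_top hpL)
  have : IsLocalRing Q := IsLocalRing.of_surjective' (Ideal.Quotient.mk pL) Ideal.Quotient.mk_surjective
  let θR : R →ₐ[k] Q := (Ideal.Quotient.mkₐ k pL).comp (IsScalarTower.toAlgHom k R L)
  have hθR : ∀ r, r ∉ 𝔪 → IsUnit (θR r) := fun r hr =>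
    (IsLocalization.map_units L (⟨r, hr⟩ : 𝔪.primeCompl)).map (Ideal.Quotient.mk pL)
  have hk₁ : ∀ a ∈ p, θR (algebraMap A R a) = 0 := fun a ha => Ideal.Quotient.eq_zero_iff_mem.2
    (Ideal.mem_map_of_mem (algebraMap R L) (Ideal.mem_map_of_mem (algebraMap A R) ha))
  have hsurj : ∀ t : Q, ∃ r s : R, IsUnit (θR s) ∧ θR s * t = θR r := fun t => by
    obtain ⟨z, rfl⟩ := Ideal.Quotient.mk_surjective (I := pL) t
    obtain ⟨r, s, rfl⟩ := IsLocalization.exists_mk'_eq 𝔪.primeCompl z
    refine ⟨r, s, hθR s s.2, ?_⟩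
    show Ideal.Quotient.mk pL (algebraMap R L s) * Ideal.Quotient.mk pL _ =
      Ideal.Quotient.mk pL (algebraMap R L r)
    rw [← map_mul, IsLocalization.mk'_spec']
  have : IsPrincipalIdealRing Q := M.isPrincipalIdealRing_of_fibre (A := A) (Q := Q) θR p hk₁
    (fun a ha => hθR (algebraMap A R a) ha) hsurj
  -- a generator
  let IL : Ideal L := I.map (algebraMap R L)
  obtain ⟨t, ht⟩ := (IsPrincipalIdealRing.principal (IL.map (Ideal.Quotient.mk pL))).principal
  obtain ⟨z, hz, hzt⟩ := (Ideal.mem_map_iff_of_surjective _ Ideal.Quotient.mk_surjective).1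
    (ht ▸ Submodule.mem_span_singleton_self t : t ∈ IL.map (Ideal.Quotient.mk pL))
  obtain ⟨⟨⟨g, hg⟩, s₀⟩, hgz⟩ := (IsLocalization.mem_map_algebraMap_iff 𝔪.primeCompl L).1 hz
  dsimp only at hgz
  have hgen : IL ≤ Ideal.span {algebraMap R L g} := by
    refine Submodule.le_of_le_smul_of_le_jacobson_bot (hIfg.map _) (I := pL)
      (hpL.trans (IsLocalRing.maximalIdeal_le_jacobson _)) (Ideal.map_le_iff_le_comap.2 fun j hj => ?_)
    rw [Ideal.mem_comap]
    have h1 : Ideal.Quotient.mk pL (algebraMap R L j) ∈ IL.map (Ideal.Quotient.mk pL) :=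
      Ideal.mem_map_of_mem _ (Ideal.mem_map_of_mem _ hj)
    rw [ht] at h1
    obtain ⟨c, hc⟩ := Submodule.mem_span_singleton.1 h1
    obtain ⟨c', rfl⟩ := Ideal.Quotient.mk_surjective c
    rw [← hzt, smul_eq_mul, ← map_mul, Ideal.Quotient.eq] at hc
    -- `hc : c' * z - j ∈ pL`
    obtain ⟨r, s₁, rfl⟩ := IsLocalization.exists_mk'_eq 𝔪.primeCompl c'
    obtain ⟨⟨⟨w, hw⟩, s₂⟩, hws⟩ := (IsLocalization.mem_map_algebraMap_iff 𝔪.primeCompl L).1 hc
    dsimp only at hws
    have hu : ∀ s : 𝔪.primeCompl, IsUnit (algebraMap R L (s : R)) := IsLocalization.map_units L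
    have key : algebraMap R L ((s₂ : R) * (r * g) - (s₂ : R) * (s₁ * s₀) * j) =
        algebraMap R L (s₁ * s₀ * w) := by
      have e1 := IsLocalization.mk'_spec L r s₁
      simp only [map_sub, map_mul]
      linear_combination (algebraMap R L s₁ * algebraMap R L s₀) * hws -
        (algebraMap R L s₂ * IsLocalization.mk' L r s₁ * algebraMap R L s₁) * hgz -
        (algebraMap R L s₂ * algebraMap R L g) * e1
    obtain ⟨s₃, hs₃⟩ := (IsLocalization.eq_iff_exists (M := 𝔪.primeCompl) (S := L)).1 key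
    have h4 : (s₃ : R) * ((s₂ : R) * (r * g) - (s₂ : R) * (s₁ * s₀) * j) ∈ pR * I := by
      refine hinter _ (I.mul_mem_left _ (sub_mem (I.mul_mem_left _ (I.mul_mem_left _ hg))
        (I.mul_mem_left _ hj))) ?_
      rw [hs₃]
      exact pR.mul_mem_left _ (pR.mul_mem_left _ hw)
    have h5 := Ideal.mem_map_of_mem (algebraMap R L) h4
    rw [Ideal.map_mul, map_mul, Ideal.unit_mul_mem_iff_mem _ (hu s₃)] at h5
    have h6 : algebraMap R L ((s₂ : R) * (r * g)) ∈ Ideal.span {algebraMap R L g} :=
      Ideal.mem_span_singleton.2 ⟨algebraMap R L (s₂ * r), by rw [← map_mul]; congr 1; ring⟩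
    have h7 : algebraMap R L ((s₂ : R) * (s₁ * s₀)) * algebraMap R L j ∈
        Ideal.span {algebraMap R L g} ⊔ pL * IL := by
      rw [← map_mul, show (s₂ : R) * (s₁ * s₀) * j = (s₂ : R) * (r * g) -
        ((s₂ : R) * (r * g) - (s₂ : R) * (s₁ * s₀) * j) by ring, map_sub]
      exact sub_mem (le_sup_left (a := Ideal.span {algebraMap R L g}) h6)
        (le_sup_right (a := Ideal.span {algebraMap R L g}) h5)
    rw [Ideal.unit_mul_mem_iff_mem _
      ((map_mul (algebraMap R L) _ _).symm ▸ (hu s₂).mul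
        ((map_mul (algebraMap R L) _ _).symm ▸ (hu s₁).mul (hu s₀)))] at h7
    exact h7
  -- clear denominators
  have hloc : ∀ i ∈ I, ∃ s : R, s ∉ 𝔪 ∧ s * i ∈ Ideal.span {g} := fun i hi => by
    have h := hgen (Ideal.mem_map_of_mem (algebraMap R L) hi)
    rw [show Ideal.span {algebraMap R L g} = (Ideal.span {g}).map (algebraMap R L) by
      rw [Ideal.map_span, Set.image_singleton]] at h
    obtain ⟨⟨⟨w, hw⟩, s⟩, hws⟩ := (IsLocalization.mem_map_algebraMap_iff 𝔪.primeCompl L).1 h
    dsimp only at hws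
    rw [← map_mul] at hws
    obtain ⟨s', hs'⟩ := (IsLocalization.eq_iff_exists (M := 𝔪.primeCompl) (S := L)).1 hws
    refine ⟨s' * s, fun h' => (h𝔪.isPrime.mem_or_mem h').elim s'.2 s.2, ?_⟩
    rw [mul_assoc, mul_comm (s : R) i, hs']
    exact Ideal.mul_mem_left _ _ hw
  obtain ⟨T, hT⟩ := hIfg
  choose! s hs hsg using hloc
  refine ⟨g, hg, ∏ i ∈ T, s i, fun h' => ?_, fun i hi => ?_⟩
  · obtain ⟨i, hiT, hi'⟩ := (h𝔪.isPrime.prod_mem_iff).1 h'
    exact hs i (hT ▸ Submodule.subset_span hiT) hi'
  · rw [← hT] at hi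
    refine (?_ : Submodule.span R (T : Set R) ≤
      Submodule.comap (LinearMap.mulLeft R (∏ i ∈ T, s i)) (Ideal.span {g})) hi
    rw [Submodule.span_le]
    intro j hj
    show (∏ i ∈ T, s i) * j ∈ Ideal.span {g}
    rw [← Finset.mul_prod_erase T s hj, mul_right_comm]
    exact Ideal.mul_mem_right _ _ (hsg j (hT ▸ Submodule.subset_span hj))

end FLTAgent.Jac
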