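import Fermat.Agent.Jac.Defs

/-!
# S25: the chart rings are free over the polynomial ring; monic equations of divisors
-/

set_option autoImplicit false

universe u

open TensorProduct Polynomial

namespace FLTAgent.Jac

variable {k : Type u} [Field k] (M : Model k) {A : Type u} [CommRing A] [Algebra k A]
  {B : Type u} [CommRing B] [Algebra k B]

/-- `x` on the chart `U₊ × Spec A`. -/
noncomputable def Model.xA (A : Type u) [CommRing A] [Algebra k A] : M.Ap A := 1 ⊗ₜ M.x

/-- `y` on the chart `U₋ × Spec A`. -/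
noncomputable def Model.yA (A : Type u) [CommRing A] [Algebra k A] : M.Am A := 1 ⊗ₜ M.y

theorem Model.ipA_xA : M.ipA A (M.xA A) = (M.xU A : M.Apm A) := by
  simp [Model.ipA, Model.xA, Model.xU]

theorem Model.imA_yA : M.imA A (M.yA A) = (↑(M.xU A)⁻¹ : M.Apm A) := by
  rw [Model.imA, Model.yA, Algebra.TensorProduct.map_tmul]
  rfl

theorem Model.ipA_injective : Function.Injective (M.ipA A) :=
  Module.Flat.lTensor_preserves_injective_linearMap M.ip.toLinearMap M.ip_inj

theorem Model.imA_injective : Function.Injective (M.imA A) :=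
  Module.Flat.lTensor_preserves_injective_linearMap M.im.toLinearMap M.im_inj

theorem Model.mapP_xA (f : A →ₐ[k] B) : M.mapP f (M.xA A) = M.xA B := by
  simp [Model.mapP, Model.xA]

theorem Model.mapM_yA (f : A →ₐ[k] B) : M.mapM f (M.yA A) = M.yA B := by
  simp [Model.mapM, Model.yA]

theorem Model.mapPM_ipA (f : A →ₐ[k] B) (a : M.Ap A) :
    M.mapPM f (M.ipA A a) = M.ipA B (M.mapP f a) := by
  induction a using TensorProduct.induction_on with
  | zero => simp
  | tmul a r => simp [Model.mapPM, Model.ipA, Model.mapP]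
  | add a b ha hb => simp only [map_add, ha, hb]

theorem Model.mapPM_imA (f : A →ₐ[k] B) (a : M.Am A) :
    M.mapPM f (M.imA A a) = M.imA B (M.mapM f a) := by
  induction a using TensorProduct.induction_on with
  | zero => simp
  | tmul a r => simp [Model.mapPM, Model.imA, Model.mapM]
  | add a b ha hb => simp only [map_add, ha, hb]

theorem Model.mapPM_xU (f : A →ₐ[k] B) :
    Units.map (M.mapPM f).toMonoidHom (M.xU A) = M.xU B :=
  Units.ext (by simp [Model.mapPM, Model.xU])

theorem Model.mapPM_xU_zpow (f : A →ₐ[k] B) (i : ℤ) :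
    M.mapPM f (↑(M.xU A ^ i) : M.Apm A) = (↑(M.xU B ^ i) : M.Apm B) := by
  rw [← M.mapPM_xU f, ← map_zpow]
  rfl

variable (A)

/-- A basis of a chart over polynomials. -/
theorem Model.exists_polyBasis : ∃ b : Fin M.d → M.Ap A,
    Function.Bijective fun c : Fin M.d → A[X] => ∑ i, aeval (M.xA A) (c i) * b i := by
  classical
  obtain ⟨b, hb⟩ := M.basis_p
  let e₀ : (Fin M.d → k[X]) →ₗ[k] M.Rp :=
    { toFun := fun c => ∑ i, aeval M.x (c i) * b i
      map_add' := fun c c' => by
        simp only [Pi.add_apply, map_add, add_mul, Finset.sum_add_distrib]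
      map_smul' := fun a c => by
        simp only [Pi.smul_apply, map_smul, RingHom.id_apply, Finset.smul_sum, smul_mul_assoc] }
  let e := LinearEquiv.ofBijective e₀ hb
  let E : (Fin M.d → A[X]) ≃ₗ[k] M.Ap A :=
    (LinearEquiv.piCongrRight fun _ => (polyEquivTensor k A).toLinearEquiv) ≪≫ₗ
      (TensorProduct.piRight k k A fun _ : Fin M.d => k[X]).symm ≪≫ₗ
      e.lTensor A
  refine ⟨fun i => 1 ⊗ₜ b i, ?_⟩
  suffices h : ∀ c : Fin M.d → A[X],
      ∑ i, aeval (M.xA A) (c i) * ((1 : A) ⊗ₜ[k] b i) = E c by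
    rw [funext h]; exact E.bijective
  intro c
  rw [← Finset.univ_sum_single c, map_sum]
  simp only [Finset.sum_apply, map_sum, Finset.sum_mul]
  rw [Finset.sum_comm]
  refine Finset.sum_congr rfl fun j _ => ?_
  rw [Finset.sum_eq_single j (fun i _ hij => by simp [hij]) (fun h => absurd (Finset.mem_univ j) h),
    Pi.single_eq_same]
  induction c j using Polynomial.induction_on' with
  | add p q hp hq => rw [map_add, add_mul, hp, hq, Pi.single_add, map_add]
  | monomial n a =>
    have h1 : (polyEquivTensor k A) (monomial n a) = a ⊗ₜ[k] (X ^ n : k[X]) := by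
      simp
    have h2 : (LinearEquiv.piCongrRight fun _ : Fin M.d => (polyEquivTensor k A).toLinearEquiv)
        (Pi.single j (monomial n a)) = Pi.single j (a ⊗ₜ[k] (X ^ n : k[X])) := by
      funext i
      rcases eq_or_ne i j with rfl | hij
      · simp [h1]
      · simp [hij]
    have h3 : (TensorProduct.piRight k k A fun _ : Fin M.d => k[X]).symm
        (Pi.single j (a ⊗ₜ[k] (X ^ n : k[X]))) = a ⊗ₜ[k] Pi.single j (X ^ n : k[X]) := by
      rw [LinearEquiv.symm_apply_eq]
      funext i
      rcases eq_or_ne i j with rfl | hij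
      · simp
      · simp [hij]
    simp only [E, LinearEquiv.trans_apply, h2, h3]
    simp only [LinearEquiv.lTensor_tmul, e, LinearEquiv.ofBijective_apply, e₀, LinearMap.coe_mk,
      AddHom.coe_mk]
    rw [Finset.sum_eq_single j (fun i _ hij => by simp [hij])
      (fun h => absurd (Finset.mem_univ j) h), Pi.single_eq_same, map_pow, aeval_X, aeval_monomial,
      Model.xA, Algebra.TensorProduct.tmul_pow, one_pow, Algebra.TensorProduct.algebraMap_apply,
      Algebra.TensorProduct.tmul_mul_tmul, Algebra.TensorProduct.tmul_mul_tmul]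
    simp

variable {A}

/-- A monic polynomial in `x` is a nonzerodivisor. -/
theorem Model.aeval_monic_regular {q : A[X]} (hq : q.Monic) (r : M.Ap A)
    (h : aeval (M.xA A) q * r = 0) : r = 0 := by
  obtain ⟨b, hb⟩ := M.exists_polyBasis A
  obtain ⟨c, rfl⟩ := hb.2 r
  have h' : (fun c : Fin M.d → A[X] => ∑ i, aeval (M.xA A) (c i) * b i) (fun i => q * c i) =
      (fun c : Fin M.d → A[X] => ∑ i, aeval (M.xA A) (c i) * b i) 0 := by
    simp only [map_mul, mul_assoc, ← Finset.mul_sum, Pi.zero_apply, map_zero, zero_mul,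
      Finset.sum_const_zero]
    exact h
  have hc : c = 0 := funext fun i => hq.mul_right_eq_zero_iff.1 (congrFun (hb.1 h') i)
  simp [hc]

/-- The chart modulo a monic polynomial in `x` is finite over the base. -/
theorem Model.exists_finset_of_monic {q : A[X]} (hq : q.Monic) :
    ∃ s : Finset (M.Ap A), ∀ r : M.Ap A, ∃ r' : M.Ap A,
      r - aeval (M.xA A) q * r' ∈ Submodule.span A (s : Set (M.Ap A)) := by
  classical
  obtain ⟨b, hb⟩ := M.exists_polyBasis A
  refine ⟨(Finset.univ ×ˢ Finset.range (q.natDegree + 1)).image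
    fun p : Fin M.d × ℕ => M.xA A ^ p.2 * b p.1, fun r => ?_⟩
  obtain ⟨c, rfl⟩ := hb.2 r
  refine ⟨∑ i, aeval (M.xA A) (c i /ₘ q) * b i, ?_⟩
  simp only [Finset.mul_sum, ← Finset.sum_sub_distrib, ← mul_assoc, ← sub_mul, ← map_mul, ← map_sub]
  refine Submodule.sum_mem _ fun i _ => ?_
  rw [show c i - q * (c i /ₘ q) = c i %ₘ q from
    sub_eq_iff_eq_add.2 (modByMonic_add_div (c i) q).symm,
    aeval_eq_sum_range' (Nat.lt_succ_of_le (natDegree_modByMonic_le (c i) hq)), Finset.sum_mul]
  refine Submodule.sum_mem _ fun n hn => ?_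
  rw [smul_mul_assoc]
  exact Submodule.smul_mem _ _ (Submodule.subset_span (Finset.mem_coe.2
    (Finset.mem_image.2 ⟨(i, n), Finset.mem_product.2 ⟨Finset.mem_univ i, hn⟩, rfl⟩)))

/-- A divisor which is finite over the base has a monic equation in `x`. -/
theorem exists_monic_mem {I : Ideal (M.Ap A)} (hI : Module.Finite A (M.Ap A ⧸ I)) :
    ∃ q : A[X], q.Monic ∧ aeval (M.xA A) q ∈ I := by
  obtain ⟨q, hq, h⟩ := IsIntegral.of_finite A (Ideal.Quotient.mkₐ A I (M.xA A))
  refine ⟨q, hq, Ideal.Quotient.eq_zero_iff_mem.1 ?_⟩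
  rw [← Polynomial.aeval_def, Polynomial.aeval_algHom_apply] at h
  exact h

/-- The equation of the divisor near the pole of `x`: `x ^ deg q * u = q(x)` with `u ≡ 1 (y)`. -/
theorem Model.exists_unit_eq {q : A[X]} (hq : q.Monic) : ∃ u v : M.Am A, u = 1 + M.yA A * v ∧
    (M.xU A : M.Apm A) ^ q.natDegree * M.imA A u = M.ipA A (aeval (M.xA A) q) := by
  refine ⟨aeval (M.yA A) q.reverse, aeval (M.yA A) q.reverse.divX, ?_, ?_⟩
  · conv_lhs => rw [← X_mul_divX_add q.reverse]
    rw [coeff_zero_reverse, hq.leadingCoeff, map_one, map_add, map_mul, aeval_X, map_one, add_comm]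
  · rw [← aeval_algHom_apply, ← aeval_algHom_apply, M.imA_yA, M.ipA_xA, mul_comm]
    let : Invertible (M.xU A : M.Apm A) := (M.xU A).invertible
    exact eval₂_reverse_mul_pow (algebraMap A (M.Apm A)) (M.xU A : M.Apm A) q

end FLTAgent.Jac
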