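import Fermat.Agent.Jac.Ops.Div

/-!
# S25: subbundles cut out by divisors, their existence and the partner bundle
-/

set_option autoImplicit false

universe u

open TensorProduct Polynomial

namespace FLTAgent.Jac

variable {k : Type u} [Field k] {M : Model k} {A : Type u} [CommRing A] [Algebra k A]

open LineData

namespace Ops

theorem ρp_smul (L : LineData M A) (r : M.Ap A) (m : L.Mp) :
    L.ρp (r • m) = M.ipA A r • L.ρp m := map_smulₛₗ L.ρp r m

theorem ρm_smul (L : LineData M A) (r : M.Am A) (m : L.Mm) :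
    L.ρm (r • m) = M.imA A r • L.ρm m := map_smulₛₗ L.ρm r m

theorem span_range_ρp (L : LineData M A) : Submodule.span (M.Apm A) (Set.range L.ρp) = ⊤ := by
  refine eq_top_iff.2 fun n _ => ?_
  obtain ⟨i, m, hm⟩ := L.ρp_surj n
  refine (Submodule.smul_mem_iff_of_isUnit _ ((M.xU A).isUnit.pow i)).1 ?_
  rw [hm]
  exact Submodule.subset_span ⟨m, rfl⟩

theorem span_range_ρm (L : LineData M A) : Submodule.span (M.Apm A) (Set.range L.ρm) = ⊤ := by
  refine eq_top_iff.2 fun n _ => ?_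
  obtain ⟨i, m, hm⟩ := L.ρm_surj n
  refine (Submodule.smul_mem_iff_of_isUnit _ ((M.xU A)⁻¹.isUnit.pow i)).1 ?_
  rw [hm]
  exact Submodule.subset_span ⟨m, rfl⟩

/-- Multiplication by a regular element is injective on an invertible module. -/
theorem smul_eq_zero_of_regular {R : Type u} [CommRing R] {V : Type u} [AddCommGroup V] [Module R V]
    [Module.Invertible R V] {P : R} (hP : ∀ r, P * r = 0 → r = 0) {v : V} (h : P • v = 0) :
    v = 0 :=
  (Module.forall_dual_apply_eq_zero_iff R v).1 fun φ =>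
    hP _ (by rw [← smul_eq_mul, ← map_smul, h, map_zero])

/-- The preimage of a linear map under an injective one. -/
theorem exists_preimageMap {R : Type u} [CommRing R] {V W U : Type u} [AddCommGroup V]
    [Module R V] [AddCommGroup W] [Module R W] [AddCommGroup U] [Module R U] (f : V →ₗ[R] W)
    (hf : Function.Injective f) (h : U →ₗ[R] W) (hh : ∀ m, h m ∈ LinearMap.range f) :
    ∃ g : U →ₗ[R] V, ∀ m, f (g m) = h m := by
  choose g hg using fun m => (hh m : ∃ v, f v = h m)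
  exact ⟨{ toFun := g
           map_add' := fun a b => hf (by rw [map_add, hg, hg, hg, map_add])
           map_smul' := fun r a => hf (by rw [RingHom.id_apply, map_smul, hg, hg, map_smul]) }, hg⟩

/-- A criterion for subbundles. -/
theorem isSub_of_range {L L' : LineData M A} {I : Ideal (M.Ap A)} (f : Hom L' L)
    (hfp : Function.Injective f.fp) (hr : LinearMap.range f.fp = I • ⊤) {u : M.Am A}
    (hc : IsCoprime (M.yA A) u) (hu : ∀ m : L.Mm, u • m ∈ LinearMap.range f.fm) :
    IsSub L L' I := by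
  have hfn : Function.Injective f.fn := by
    refine (injective_iff_map_eq_zero f.fn).2 fun n hn => ?_
    obtain ⟨i, m, hm⟩ := L'.ρp_surj n
    have h1 : f.fn ((M.xU A : M.Apm A) ^ i • n) = 0 := by rw [map_smul, hn, smul_zero]
    rw [hm, f.comm_p] at h1
    have hm0 : m = 0 := hfp (L.ρp_inj (by rw [h1, map_zero, map_zero]))
    rw [hm0, map_zero] at hm
    exact ((M.xU A).isUnit.pow i).smul_eq_zero.1 hm
  refine ⟨f, hfp, ?_, hfn, hr, fun m => ⟨?_, ?_⟩⟩
  · exact fun a b h => L'.ρm_inj (hfn (by rw [f.comm_m, f.comm_m, h]))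
  · rintro ⟨m', rfl⟩
    exact ⟨L'.ρm m', f.comm_m m'⟩
  · rintro ⟨n, hn⟩
    obtain ⟨i, m', hm'⟩ := L'.ρm_surj n
    have h1 : M.yA A ^ i • m = f.fm m' := L.ρm_inj (by
      rw [ρm_smul, map_pow, M.imA_yA, ← hn, ← map_smul, hm', f.comm_m])
    obtain ⟨a, b, hab⟩ := hc.pow_left (m := i)
    rw [← one_smul (M.Am A) m, ← hab, add_smul, mul_smul, mul_smul, h1]
    exact add_mem (Submodule.smul_mem _ _ ⟨m', rfl⟩) (Submodule.smul_mem _ _ (hu m))

/-- The equation of a divisor kills the cokernel away from the chart of `x`. -/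
theorem unit_smul_mem_range {L L' : LineData M A} {I : Ideal (M.Ap A)} (f : Hom L' L)
    (hr : LinearMap.range f.fp = I • ⊤)
    (hcond : ∀ m : L.Mm, m ∈ LinearMap.range f.fm ↔ L.ρm m ∈ LinearMap.range f.fn)
    {q : A[X]} (hP : aeval (M.xA A) q ∈ I) {u : M.Am A}
    (hu : (M.xU A : M.Apm A) ^ q.natDegree * M.imA A u = M.ipA A (aeval (M.xA A) q))
    (m : L.Mm) : u • m ∈ LinearMap.range f.fm := by
  rw [hcond, ρm_smul]
  obtain ⟨i, a, ha⟩ := L.ρp_surj (L.ρm m)
  have hmem : aeval (M.xA A) q • a ∈ LinearMap.range f.fp := hr ▸ Submodule.smul_mem_smul hP trivial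
  obtain ⟨b, hb⟩ := hmem
  have hU : IsUnit ((M.xU A : M.Apm A) ^ (q.natDegree + i)) := (M.xU A).isUnit.pow _
  refine (Submodule.smul_mem_iff_of_isUnit (LinearMap.range f.fn) hU).1 ⟨L'.ρp b, ?_⟩
  rw [f.comm_p, hb, ρp_smul, ← ha, ← hu, smul_smul, smul_smul]
  congr 1
  ring

/-- The equation in `x` is regular on the overlap. -/
theorem ipA_regular {q : A[X]} (hq : q.Monic) (r : M.Apm A)
    (h : M.ipA A (aeval (M.xA A) q) * r = 0) : r = 0 := by
  obtain ⟨i, a, ha⟩ := LineData.exists_ipA_eq r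
  have h1 : M.ipA A (aeval (M.xA A) q * a) = M.ipA A 0 := by
    rw [map_mul, ← ha, mul_left_comm, h, mul_zero, map_zero]
  rw [M.aeval_monic_regular hq a (M.ipA_injective h1), map_zero] at ha
  exact ((M.xU A).isUnit.pow i).mul_right_eq_zero.1 ha

/-- Clearing denominators in the extension of an ideal of the chart of `x`. -/
theorem exists_pow_mem_p {I : Ideal (M.Ap A)} {z : M.Apm A} (hz : z ∈ I.map (M.ipA A)) :
    ∃ (i : ℕ) (a : M.Ap A), a ∈ I ∧ (M.xU A : M.Apm A) ^ i * z = M.ipA A a := by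
  induction hz using Submodule.span_induction with
  | mem x hx =>
    obtain ⟨a, ha, rfl⟩ := hx
    exact ⟨0, a, ha, by rw [pow_zero, one_mul]⟩
  | zero => exact ⟨0, 0, zero_mem _, by rw [mul_zero, map_zero]⟩
  | add x y _ _ hx hy =>
    obtain ⟨i, a, ha, hx⟩ := hx
    obtain ⟨j, b, hb, hy⟩ := hy
    refine ⟨i + j, M.xA A ^ j * a + M.xA A ^ i * b,
      add_mem (I.mul_mem_left _ ha) (I.mul_mem_left _ hb), ?_⟩
    rw [map_add, map_mul, map_mul, map_pow, map_pow, M.ipA_xA, ← hx, ← hy, pow_add]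
    ring
  | smul r x _ hx =>
    obtain ⟨i, a, ha, hx⟩ := hx
    obtain ⟨j, b, hb⟩ := LineData.exists_ipA_eq r
    refine ⟨i + j, b * a, I.mul_mem_left _ ha, ?_⟩
    rw [map_mul, ← hb, ← hx, smul_eq_mul, pow_add]
    ring

/-- The ideal on the chart of `y` of a divisor of the chart of `x`. -/
noncomputable def otherIdeal (I : Ideal (M.Ap A)) : Ideal (M.Am A) :=
  (I.map (M.ipA A)).comap (M.imA A)

/-- Clearing denominators towards the chart of `y`. -/
theorem exists_pow_mem_m {I : Ideal (M.Ap A)} {z : M.Apm A} (hz : z ∈ I.map (M.ipA A)) :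
    ∃ (i : ℕ) (w : M.Am A), w ∈ otherIdeal I ∧
      (↑(M.xU A)⁻¹ : M.Apm A) ^ i * z = M.imA A w := by
  obtain ⟨i, w, hw⟩ := (LineData.unit M A).ρm_surj z
  refine ⟨i, w, ?_, hw⟩
  show M.imA A w ∈ I.map (M.ipA A)
  rw [show M.imA A w = (↑(M.xU A)⁻¹ : M.Apm A) ^ i * z from hw.symm]
  exact Ideal.mul_mem_left _ _ hz

theorem unit_mem_otherIdeal {I : Ideal (M.Ap A)} {q : A[X]} (hP : aeval (M.xA A) q ∈ I)
    {u : M.Am A}
    (hu : (M.xU A : M.Apm A) ^ q.natDegree * M.imA A u = M.ipA A (aeval (M.xA A) q)) :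
    u ∈ otherIdeal I := by
  show M.imA A u ∈ I.map (M.ipA A)
  rw [← Ideal.unit_mul_mem_iff_mem _ ((M.xU A).isUnit.pow q.natDegree), hu]
  exact Ideal.mem_map_of_mem _ hP

theorem partner_mem {I I' : Ideal (M.Ap A)} {q : A[X]}
    (h : I * I' = Ideal.span {aeval (M.xA A) q}) :
    aeval (M.xA A) q ∈ I ∧ aeval (M.xA A) q ∈ I' := by
  have := h.symm ▸ Ideal.mem_span_singleton_self (aeval (M.xA A) q)
  exact ⟨(Ideal.mul_le_inf.trans inf_le_left) this, (Ideal.mul_le_inf.trans inf_le_right) this⟩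

/-- The other ideals of partners are partners. -/
theorem otherIdeal_mul {I I' : Ideal (M.Ap A)} {q : A[X]}
    (h : I * I' = Ideal.span {aeval (M.xA A) q}) {u : M.Am A}
    (hu : (M.xU A : M.Apm A) ^ q.natDegree * M.imA A u = M.ipA A (aeval (M.xA A) q))
    (hc : IsCoprime (M.yA A) u) : otherIdeal I * otherIdeal I' = Ideal.span {u} := by
  have hmul : I.map (M.ipA A) * I'.map (M.ipA A) = Ideal.span {M.ipA A (aeval (M.xA A) q)} := by
    rw [← Ideal.map_mul, h, Ideal.map_span, Set.image_singleton]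
  apply le_antisymm
  · refine Ideal.mul_le.2 fun w hw w' hw' => ?_
    have h1 : M.imA A w * M.imA A w' ∈ I.map (M.ipA A) * I'.map (M.ipA A) :=
      Ideal.mul_mem_mul hw hw'
    rw [hmul, Ideal.mem_span_singleton] at h1
    obtain ⟨c, hc1⟩ := h1
    obtain ⟨i, s, hs⟩ := (LineData.unit M A).ρm_surj ((M.xU A : M.Apm A) ^ q.natDegree * c)
    have hs' : (↑(M.xU A)⁻¹ : M.Apm A) ^ i * ((M.xU A : M.Apm A) ^ q.natDegree * c) =
        M.imA A s := hs
    have h2 : M.yA A ^ i * (w * w') = u * s := M.imA_injective (by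
      rw [map_mul, map_mul, map_mul, map_pow, M.imA_yA, hc1, ← hs', ← hu]
      ring)
    exact Ideal.mem_span_singleton.2
      ((hc.pow_left (m := i)).symm.dvd_of_dvd_mul_left ⟨s, h2⟩)
  · rw [Ideal.span_singleton_le_iff_mem]
    have hz : ∀ z ∈ I.map (M.ipA A) * I'.map (M.ipA A), ∃ (i : ℕ) (w : M.Am A),
        w ∈ otherIdeal I * otherIdeal I' ∧ (↑(M.xU A)⁻¹ : M.Apm A) ^ i * z = M.imA A w := by
      intro z hz
      refine Submodule.mul_induction_on hz (fun a ha b hb => ?_) (fun a b ha hb => ?_)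
      · obtain ⟨i, w, hw, hwa⟩ := exists_pow_mem_m ha
        obtain ⟨j, w', hw', hwb⟩ := exists_pow_mem_m hb
        exact ⟨i + j, w * w', Ideal.mul_mem_mul hw hw', by
          rw [map_mul, ← hwa, ← hwb, pow_add]; ring⟩
      · obtain ⟨i, w, hw, hwa⟩ := ha
        obtain ⟨j, w', hw', hwb⟩ := hb
        exact ⟨i + j, M.yA A ^ j * w + M.yA A ^ i * w',
          add_mem (Ideal.mul_mem_left _ _ hw) (Ideal.mul_mem_left _ _ hw'), by
          rw [map_add, map_mul, map_mul, map_pow, map_pow, M.imA_yA, ← hwa, ← hwb, pow_add]; ring⟩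
    obtain ⟨hPI, hPI'⟩ := partner_mem h
    have hmem : M.imA A u ∈ I.map (M.ipA A) * I'.map (M.ipA A) := by
      rw [← Ideal.unit_mul_mem_iff_mem _ ((M.xU A).isUnit.pow q.natDegree), hu, hmul]
      exact Ideal.mem_span_singleton_self _
    obtain ⟨i, w, hw, hwu⟩ := hz _ hmem
    have h3 : w = M.yA A ^ i * u :=
      M.imA_injective (by rw [map_mul, map_pow, M.imA_yA, hwu])
    obtain ⟨a, b, hab⟩ := hc.pow_left (m := i)
    rw [show u = a * (M.yA A ^ i * u) + b * (u * u) by linear_combination (-u) * hab]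
    exact add_mem (Ideal.mul_mem_left _ _ (h3 ▸ hw)) (Ideal.mul_mem_left _ _
      (Ideal.mul_mem_mul (unit_mem_otherIdeal hPI hu) (unit_mem_otherIdeal hPI' hu)))

/-- Existence of `L(-Z)`. -/
theorem exists_isSub_of_partner (L : LineData M A) {I I' : Ideal (M.Ap A)} {q : A[X]}
    (hq : q.Monic) (h : I * I' = Ideal.span {aeval (M.xA A) q}) :
    ∃ L', IsSub L L' I := by
  obtain ⟨u, v, huv, hu⟩ := M.exists_unit_eq hq
  have hc : IsCoprime (M.yA A) u := ⟨-v, 1, by rw [huv]; ring⟩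
  obtain ⟨hPI, -⟩ := partner_mem h
  have hinvI : Module.Invertible (M.Ap A) I := invertible_of_partner hq h
  have hinvJ : Module.Invertible (M.Am A) (otherIdeal I) :=
    Semi.invertible_of_mul_eq_span (otherIdeal_mul h hu hc) fun r hr => M.imA_injective (by
      rw [map_zero]
      refine ipA_regular hq _ ?_
      rw [← hu, mul_assoc, ← map_mul, hr, map_zero, mul_zero])
  have hinvN : Module.Invertible (M.Apm A) (I.map (M.ipA A)) :=
    Semi.invertible_of_mul_eq_span (P := M.ipA A (aeval (M.xA A) q))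
      (by rw [← Ideal.map_mul, h, Ideal.map_span, Set.image_singleton]) (ipA_regular hq)
  have hp : ∀ m ∈ (I • ⊤ : Submodule (M.Ap A) L.Mp),
      L.ρp m ∈ (I.map (M.ipA A) • ⊤ : Submodule (M.Apm A) L.N) := fun m hm => by
    refine Submodule.smul_induction_on hm (fun r hr m _ => ?_) (fun a b ha hb => ?_)
    · rw [ρp_smul]; exact Submodule.smul_mem_smul (Ideal.mem_map_of_mem _ hr) trivial
    · rw [map_add]; exact add_mem ha hb
  have hm : ∀ m ∈ (otherIdeal I • ⊤ : Submodule (M.Am A) L.Mm),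
      L.ρm m ∈ (I.map (M.ipA A) • ⊤ : Submodule (M.Apm A) L.N) := fun m hm => by
    refine Submodule.smul_induction_on hm (fun r hr m _ => ?_) (fun a b ha hb => ?_)
    · rw [ρm_smul]; exact Submodule.smul_mem_smul hr trivial
    · rw [map_add]; exact add_mem ha hb
  have sp : ∀ n ∈ (I.map (M.ipA A) • ⊤ : Submodule (M.Apm A) L.N), ∃ (i : ℕ) (m : L.Mp),
      m ∈ (I • ⊤ : Submodule (M.Ap A) L.Mp) ∧ (M.xU A : M.Apm A) ^ i • n = L.ρp m := fun n hn => by
    refine Submodule.smul_induction_on hn (fun z hz m _ => ?_) (fun a b ha hb => ?_)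
    · obtain ⟨i, a, ha, hia⟩ := exists_pow_mem_p hz
      obtain ⟨j, m', hm'⟩ := L.ρp_surj m
      refine ⟨i + j, a • m', Submodule.smul_mem_smul ha trivial, ?_⟩
      rw [ρp_smul, ← hia, ← hm', smul_smul, smul_smul, pow_add]
      congr 1
      ring
    · obtain ⟨i, m, hm, ha⟩ := ha
      obtain ⟨j, m', hm', hb⟩ := hb
      refine ⟨i + j, M.xA A ^ j • m + M.xA A ^ i • m',
        add_mem (Submodule.smul_mem _ _ hm) (Submodule.smul_mem _ _ hm'), ?_⟩
      rw [map_add, ρp_smul, ρp_smul, ← ha, ← hb, map_pow, map_pow, M.ipA_xA, smul_smul, smul_smul,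
        ← pow_add, ← pow_add, add_comm j i, smul_add]
  have sm : ∀ n ∈ (I.map (M.ipA A) • ⊤ : Submodule (M.Apm A) L.N), ∃ (i : ℕ) (m : L.Mm),
      m ∈ (otherIdeal I • ⊤ : Submodule (M.Am A) L.Mm) ∧
        (↑(M.xU A)⁻¹ : M.Apm A) ^ i • n = L.ρm m := fun n hn => by
    refine Submodule.smul_induction_on hn (fun z hz m _ => ?_) (fun a b ha hb => ?_)
    · obtain ⟨i, w, hw, hiw⟩ := exists_pow_mem_m hz
      obtain ⟨j, m', hm'⟩ := L.ρm_surj m
      refine ⟨i + j, w • m', Submodule.smul_mem_smul hw trivial, ?_⟩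
      rw [ρm_smul, ← hiw, ← hm', smul_smul, smul_smul, pow_add]
      congr 1
      ring
    · obtain ⟨i, m, hm, ha⟩ := ha
      obtain ⟨j, m', hm', hb⟩ := hb
      refine ⟨i + j, M.yA A ^ j • m + M.yA A ^ i • m',
        add_mem (Submodule.smul_mem _ _ hm) (Submodule.smul_mem _ _ hm'), ?_⟩
      rw [map_add, ρm_smul, ρm_smul, ← ha, ← hb, map_pow, map_pow, M.imA_yA, smul_smul, smul_smul,
        ← pow_add, ← pow_add, add_comm j i, smul_add]
  let Sp : Submodule (M.Ap A) L.Mp := I • ⊤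
  let Sm : Submodule (M.Am A) L.Mm := otherIdeal I • ⊤
  let Sn : Submodule (M.Apm A) L.N := I.map (M.ipA A) • ⊤
  have : Module.Invertible (M.Ap A) Sp := Semi.invertible_smul_top I L.Mp
  have : Module.Invertible (M.Am A) Sm := Semi.invertible_smul_top (otherIdeal I) L.Mm
  have : Module.Invertible (M.Apm A) Sn := Semi.invertible_smul_top (I.map (M.ipA A)) L.N
  let L' : LineData M A :=
    { Mp := Sp
      Mm := Sm
      N := Sn
      ρp :=
        { toFun := fun m => ⟨L.ρp m, hp m m.2⟩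
          map_add' := fun a b => Subtype.ext (map_add L.ρp (a : L.Mp) b)
          map_smul' := fun r a => Subtype.ext (ρp_smul L r (a : L.Mp)) }
      ρm :=
        { toFun := fun m => ⟨L.ρm m, hm m m.2⟩
          map_add' := fun a b => Subtype.ext (map_add L.ρm (a : L.Mm) b)
          map_smul' := fun r a => Subtype.ext (ρm_smul L r (a : L.Mm)) }
      ρp_inj := fun a b e => Subtype.ext (L.ρp_inj (congrArg Subtype.val e))
      ρm_inj := fun a b e => Subtype.ext (L.ρm_inj (congrArg Subtype.val e))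
      ρp_surj := fun n => by
        obtain ⟨i, m, hm', he⟩ := sp n n.2
        exact ⟨i, ⟨m, hm'⟩, Subtype.ext he⟩
      ρm_surj := fun n => by
        obtain ⟨i, m, hm', he⟩ := sm n n.2
        exact ⟨i, ⟨m, hm'⟩, Subtype.ext he⟩ }
  refine ⟨L', isSub_of_range ⟨Sp.subtype, Sm.subtype, Sn.subtype, fun _ => rfl, fun _ => rfl⟩
    Subtype.val_injective (Submodule.range_subtype Sp) hc fun m => ?_⟩
  rw [Submodule.range_subtype]
  exact Submodule.smul_mem_smul (unit_mem_otherIdeal hPI hu) trivial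

/-- `L(-Z)` for the partner divisor, seen from a subbundle. -/
theorem isSub_dual {L L' : LineData M A} {I I' : Ideal (M.Ap A)} (h : IsSub L L' I) {q : A[X]}
    (hq : q.Monic) (hI : I * I' = Ideal.span {aeval (M.xA A) q}) :
    IsSub L' (L.twist (-(q.natDegree : ℤ))) I' := by
  obtain ⟨u, v, huv, hu⟩ := M.exists_unit_eq hq
  have hc : IsCoprime (M.yA A) u := ⟨-v, 1, by rw [huv]; ring⟩
  obtain ⟨hPI, -⟩ := partner_mem hI
  obtain ⟨f, hfp, hfm, hfn, hr, hcond⟩ := h
  set P := aeval (M.xA A) q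
  obtain ⟨gp, hgp⟩ := exists_preimageMap f.fp hfp (P • LinearMap.id) fun m => by
    rw [hr]; exact Submodule.smul_mem_smul hPI trivial
  obtain ⟨gm, hgm⟩ := exists_preimageMap f.fm hfm (u • LinearMap.id)
    fun m => unit_smul_mem_range f hr hcond hPI hu m
  obtain ⟨gn, hgn⟩ := exists_preimageMap f.fn hfn (M.ipA A P • LinearMap.id) fun n => by
    obtain ⟨i, a, ha⟩ := L.ρp_surj n
    obtain ⟨b, hb⟩ : P • a ∈ LinearMap.range f.fp := hr ▸ Submodule.smul_mem_smul hPI trivial
    refine (Submodule.smul_mem_iff_of_isUnit (LinearMap.range f.fn) ((M.xU A).isUnit.pow i)).1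
      ⟨L'.ρp b, ?_⟩
    rw [f.comm_p, hb, ρp_smul, ← ha]
    exact smul_comm _ _ _
  have hgp' : ∀ m, f.fp (gp m) = P • m := hgp
  have hgm' : ∀ m, f.fm (gm m) = u • m := hgm
  have hgn' : ∀ n, f.fn (gn n) = M.ipA A P • n := hgn
  let g : Hom (L.twist (-(q.natDegree : ℤ))) L' :=
    { fp := gp
      fm := gm
      fn := gn
      comm_p := fun m => hfn (by rw [hgn', f.comm_p, hgp', ρp_smul])
      comm_m := fun m => hfn (by
        show f.fn (gn ((↑(M.xU A ^ (-(q.natDegree : ℤ))) : M.Apm A) • L.ρm m)) = _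
        rw [hgn', f.comm_m, hgm', ρm_smul, smul_smul]
        congr 1
        rw [← hu, mul_comm, ← mul_assoc, ← Units.val_pow_eq_pow_val, ← Units.val_mul, zpow_neg,
          zpow_natCast, inv_mul_cancel, Units.val_one, one_mul]) }
  have hinj : Function.Injective g.fp := (injective_iff_map_eq_zero gp).2 fun m hm =>
    smul_eq_zero_of_regular (M.aeval_monic_regular hq) (by rw [← hgp', hm, map_zero])
  have hrange : LinearMap.range g.fp = I' • ⊤ := by
    refine Submodule.map_injective_of_injective hfp ?_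
    rw [Submodule.map_smul'', Submodule.map_top, hr, ← Submodule.smul_assoc,
      show (I' • I : Ideal (M.Ap A)) = Ideal.span {P} from (mul_comm I' I).trans hI]
    apply le_antisymm
    · rintro _ ⟨_, ⟨m, rfl⟩, rfl⟩
      rw [show f.fp (g.fp m) = P • m from hgp' m]
      exact Submodule.smul_mem_smul (Ideal.mem_span_singleton_self P) trivial
    · refine Submodule.smul_le.2 fun r hr' m _ => ?_
      obtain ⟨c, rfl⟩ := Ideal.mem_span_singleton.1 hr'
      rw [mul_smul]
      exact ⟨g.fp (c • m), ⟨_, rfl⟩, hgp' _⟩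
  refine isSub_of_range g hinj hrange hc fun m => ⟨f.fm m, hfm ?_⟩
  rw [show f.fm (g.fm (f.fm m)) = u • f.fm m from hgm' _, map_smul]

end Ops

end FLTAgent.Jac
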